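/-
S36, modular instance of the abstract model, layer TOP (owner helper253; design = ruling of the
captain helper36, 07:45).  COMMON DEFINITIONS for all the nodes N0 .. N6.

`S : Mod.Setup K K'` (helper156).  Level `N0 q q`:
* `VV S = ![V20, V11, V02]`   the three vertical valuation rings;
* `aa S f = f(z)`, `bb S f = f(q² z)`   the two extreme degeneracy maps from level `N0`;
* `S.J2one = j(z)`, `J2q S = j(q z)`, `S.J2qq = j(q² z)`;
* `EE S`   the subfield of level `N0` which is dense in the component `VV S i`;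
* `Ea S`, `Eb S`, `Na S`, `Nb S`   the images of level `N0 q` and (embedding) ∘ (norm).
The coordinate of the model is `x = S.J2one` for every `q`.
-/
import Fermat.Agent.S36.Mod.HalfInst.Insep
import Fermat.Agent.S36.ModelStatement

set_option autoImplicit false
set_option linter.unusedSectionVars false

noncomputable section

namespace Fermat.Agent.S36.Inst

open ModularCurve Fermat.Agent.S24 Fermat.Agent.S18 Fermat.Agent.S36.Mod

variable {K K' : Type*} [Field K] [Field K'] [Algebra ℚ K] [Algebra ℚ K'] [Algebra K Kbar]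
  [Algebra K' Kbar] (S : Setup K K')

/-- the three vertical valuation rings of level `N0 q q` -/
def VV : Fin 3 → ValuationSubring S.F2 := ![S.V20, S.V11, S.V02]

@[simp] theorem VV_zero : VV S 0 = S.V20 := rfl
@[simp] theorem VV_one : VV S 1 = S.V11 := rfl
@[simp] theorem VV_two : VV S 2 = S.V02 := rfl

/-- `f(z) ↦ f(z)`, level `N0` to level `N0 q q` -/
def aa : S.F0 →ₐ[K] S.F2 := S.al1.comp S.al0

/-- `f(z) ↦ f(q² z)`, level `N0` to level `N0 q q` -/
def bb : S.F0 →ₐ[K] S.F2 := S.be1.comp S.be0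

theorem aa_apply (f : S.F0) : aa S f = S.al1 (S.al0 f) := rfl

theorem bb_apply (f : S.F0) : bb S f = S.be1 (S.be0 f) := rfl

/-- `j(q z)` at level `N0 q q` -/
def J2q : S.F2 :=
  JK K (S.N0 * S.q * S.q) (1 * S.q)
    (Dvd.dvd.mul_right (Nat.mul_dvd_mul (one_dvd _) dvd_rfl) _)

/-- the image of level `N0 q` under `f(z) ↦ f(z)` -/
abbrev Ea : Subfield S.F2 := S.al1.toRingHom.fieldRange

/-- the image of level `N0 q` under `f(z) ↦ f(q z)` -/
abbrev Eb : Subfield S.F2 := S.be1.toRingHom.fieldRange

/-- (embedding) ∘ (norm) along `f(z) ↦ f(z)` -/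
abbrev Na : S.F2 →* S.F2 := embNorm S.al1.toRingHom

/-- (embedding) ∘ (norm) along `f(z) ↦ f(q z)` -/
abbrev Nb : S.F2 →* S.F2 := embNorm S.be1.toRingHom

/-- the copy of the function field of level `N0` which is dense in the component `VV S i` -/
def EE : Fin 3 → Subfield S.F2 :=
  ![(aa S).toRingHom.fieldRange, (aa S).toRingHom.fieldRange, (bb S).toRingHom.fieldRange]

@[simp] theorem EE_zero : EE S 0 = (aa S).toRingHom.fieldRange := rfl
@[simp] theorem EE_one : EE S 1 = (aa S).toRingHom.fieldRange := rfl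
@[simp] theorem EE_two : EE S 2 = (bb S).toRingHom.fieldRange := rfl

theorem aa_mem_Ea (f : S.F0) : aa S f ∈ Ea S := ⟨S.al0 f, rfl⟩

theorem bb_mem_Eb (f : S.F0) : bb S f ∈ Eb S := ⟨S.be0 f, rfl⟩

/-- the auxiliary level -/
def Aux : Prop := if S.q = 2 then 9 ∣ S.N0 else 4 ∣ S.N0

end Fermat.Agent.S36.Inst

end
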