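/-
S36, modular instance of the abstract model, layer TOP (owner helper253).
THE NODES N0 .. N6 AS PROPOSITIONS (ruling of the captain helper36, 07:45).  No proofs here.
`Inst/Top.lean` proves  `modelStatement_of_nodes : N0 → .. → N6 → S36.ModelStatement`.

Every node owner proves `theorem nodeXxx : NodeXxx` (any more general form, e.g. `Type*`, is
welcome: the node is then a one-line specialisation) in the file named in the docstring.
-/
import Fermat.Agent.S36.Inst.Defs
import Fermat.Agent.BAD.Model.Defs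
import Fermat.Agent.BAD.Model.NonCusp.Defs

set_option autoImplicit false

noncomputable section

namespace Fermat.Agent.S36.Inst

open ModularCurve Fermat.Agent.S24 Fermat.Agent.S18 Fermat.Agent.S36.Mod Fermat.Agent.S36.BP
  Fermat.Agent.BAD.Model

/-- **N0 SETUP** (helper96, `S36/Inst/SetupExists.lean`). -/
def NodeSetup : Prop :=
  ∀ (K : Type) [Field K] [Algebra ℚ K] [Algebra K Kbar] (A₀ : ValuationSubring K) (q N₀ : ℕ)
    [NeZero N₀], BaseHyp A₀ q → ¬ q ∣ N₀ →
    ∃ (K' : Type) (_ : Field K') (_ : Algebra ℚ K') (_ : Algebra K' Kbar) (S : Setup K K'),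
      S.B = A₀ ∧ S.q = q ∧ S.N0 = N₀

/-- **N1 PRE-INST** (helper30, `S36/Inst/Pre/*`): the global part of the model, coordinate `j`. -/
def NodePre : Prop :=
  ∀ (K K' : Type) [Field K] [Field K'] [Algebra ℚ K] [Algebra ℚ K'] [Algebra K Kbar]
    [Algebra K' Kbar] (S : Setup K K'), BaseHyp S.B S.q →
    PreModel S.B S.q S.J2one (VV S) S.tau0

/-- **N2 HALF** (helper154, `S36/Mod/HalfInst/*`): the two degeneracy maps from level `N0 q`. -/
def NodeHalf : Prop :=
  ∀ (K K' : Type) [Field K] [Field K'] [Algebra ℚ K] [Algebra ℚ K'] [Algebra K Kbar]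
    [Algebra K' Kbar] (S : Setup K K'),
    Half S.q S.tau0 (Ea S) (Na S) S.V20 S.V11 S.V02 ∧
    Half S.q S.tau0 (Eb S) (Nb S) S.V02 S.V11 S.V20 ∧
    (∀ a : K, Na S (algebraMap K S.F2 a) = algebraMap K S.F2 a ^ S.q) ∧
    (∀ a : K, Nb S (algebraMap K S.F2 a) = algebraMap K S.F2 a ^ S.q)

/-- **N3 CUSP-INST** (helper38; MODEQ helper254): `s = 1/j(z)`, `s' = 1/j(qz)`, `s'' = 1/j(q²z)`. -/
def NodeCusp : Prop :=
  ∀ (K K' : Type) [Field K] [Field K'] [Algebra ℚ K] [Algebra ℚ K'] [Algebra K Kbar]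
    [Algebra K' Kbar] (S : Setup K K'), BaseHyp S.B S.q →
    ∃ c : ℕ → ℕ → K, CuspData S.B S.q (VV S) c S.J2one⁻¹ (J2q S)⁻¹ S.J2qq⁻¹

/-- **N4 GOODBELOW-INST + DENSE** (helper63, `S36/Inst/Good/*`): near every closed point each
component is a copy of the good model of level `N0`. -/
def NodeGood : Prop :=
  ∀ (K K' : Type) [Field K] [Field K'] [Algebra ℚ K] [Algebra ℚ K'] [Algebra K Kbar]
    [Algebra K' Kbar] (S : Setup K K'), BaseHyp S.B S.q → Aux S →
    ∀ R : Subring S.F2, PtBase S.B S.q (VV S) R → (S.J2one ∈ R ∨ S.J2one⁻¹ ∈ rad R) →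
      ∀ i, LeLoc R (VV S i) → GoodBelow (VV S i) (EE S i) R

/-- **N5 NONCUSP-INST** (ETAINST helper210; middle component helper269 / helper208): the indicator
functions of the three components and the uniformiser of the middle one, on the chart `j ≠ ∞`. -/
def NodeNonCusp : Prop :=
  ∀ (K K' : Type) [Field K] [Field K'] [Algebra ℚ K] [Algebra ℚ K'] [Algebra K Kbar]
    [Algebra K' Kbar] (S : Setup K K'), BaseHyp S.B S.q → Aux S →
    ∃ (Y : Fin 3 → S.F2) (z κ : S.F2) (e : Fin 4 → S.F2), NonCuspData S.q (VV S) Y z κ e ∧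
      ∀ R : Subring S.F2, PtBase S.B S.q (VV S) R → S.J2one ∈ R →
        (∀ c, Y c ∈ R) ∧ z ∈ R ∧ (∀ i, RUnit R (e i)) ∧
          (RUnit R (Y 0) → RUnit R (Y 2) → RUnit R κ)

/-- **N6 HALFPT-INST** (helper135, `S36/Inst/HalfPt/*`): the two degeneracy maps at the crossing
points. -/
def NodeHalfPt : Prop :=
  ∀ (K K' : Type) [Field K] [Field K'] [Algebra ℚ K] [Algebra ℚ K'] [Algebra K Kbar]
    [Algebra K' Kbar] (S : Setup K K'), BaseHyp S.B S.q → Aux S →
    ∀ (𝔫 : Ideal (chart S.B.toSubring S.J2one)) [𝔫.IsMaximal],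
      ((S.q : ℕ) : chart S.B.toSubring S.J2one) ∈ 𝔫 →
      (∀ c, Through (locSub (chart S.B.toSubring S.J2one) 𝔫) (VV S c)) →
      HalfPt (Ea S) (Na S) (VV S 0) (VV S 1) (locSub (chart S.B.toSubring S.J2one) 𝔫) ∧
      HalfPt (Eb S) (Nb S) (VV S 2) (VV S 1) (locSub (chart S.B.toSubring S.J2one) 𝔫)

end Fermat.Agent.S36.Inst

end
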