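/-
S36, modular instance of the abstract model, route (η) (owner helper253; ruling of the captain
helper36, 08:05).  `modelStatement_of_eta : N0 → NodeBase → N3 → N5 → S36.ModelStatement`, sorry-free.

* `NodeSetup`   (N0, helper96)                       `S36/Inst/Nodes.lean`
* `NodeBase`    = blocks L0, VAL, HALF, SYM, DICH of helper98's contract (all the fields of
                  `BAD.Model.InstData` up to `dich`) for the concrete objects of `Mod.Setup`
* `NodeCusp`    (N3, CUSP-INST helper38)             `S36/Inst/Nodes.lean`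
* `NodeNonCusp` (N5, ETAINST helper210)              `S36/Inst/Nodes.lean`
-/
import Fermat.Agent.S36.Inst.Nodes
import Fermat.Agent.BAD.Model.Eta.Top

set_option autoImplicit false
set_option linter.unusedSectionVars false

noncomputable section

namespace Fermat.Agent.S36.Inst

open ModularCurve Fermat.Agent.S24 Fermat.Agent.S18 Fermat.Agent.S36.Mod Fermat.Agent.S36.BP
  Fermat.Agent.BAD.Model

/-- **NodeBase**: blocks L0, VAL, HALF, SYM, DICH.  `x₀` is the base coordinate of level `N0`
(`(baseData4 ..).xK K` for `q` odd, `(baseData9 ..).xK K` for `q = 2`). -/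
def NodeBase : Prop :=
  ∀ (K K' : Type) [Field K] [Field K'] [Algebra ℚ K] [Algebra ℚ K'] [Algebra K Kbar]
    [Algebra K' Kbar] (S : Setup K K'), BaseHyp S.B S.q → Aux S →
    ∃ x₀ : S.F0, EtaBase S.B S.q (aa S) (bb S) x₀ (jK K S.N0) S.V0 (VV S) S.tau0
      (Ea S) (Eb S) (Na S) (Nb S)

section

variable {K K' : Type*} [Field K] [Field K'] [Algebra ℚ K] [Algebra ℚ K'] [Algebra K Kbar]
  [Algebra K' Kbar] (S : Setup K K')

/-- `j` of level `N0`, seen at level `N0 q q`, is `J2one`. -/
theorem aa_jK : aa S (jK K S.N0) = S.J2one := by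
  apply Subtype.ext
  show (((heckeAlphaBar K (S.N0 * S.q) S.q) ((heckeAlphaBar K S.N0 S.q) (jK K S.N0)) :
    FK K (S.N0 * S.q * S.q)) : LaurentSeries K) = Js K 1
  rw [coe_heckeAlphaBar, coe_heckeAlphaBar]
  show coeffEmb K jq = Js K 1
  rw [Js, qExpand_one_apply]

end

/-- **`S36.ModelStatement`, route (η).** -/
theorem modelStatement_of_eta (h0 : NodeSetup) (hB : NodeBase) (h3 : NodeCusp)
    (h5 : NodeNonCusp) : ModelStatement := by
  intro K _ _ _ A₀ q _ N₀ _ hb hq haux
  obtain ⟨K', _, _, _, S, rfl, rfl, rfl⟩ := h0 K A₀ q N₀ hb hq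
  obtain ⟨x₀, D⟩ := hB K K' S hb haux
  obtain ⟨c, hC⟩ := h3 K K' S hb
  obtain ⟨Y, z, κ, e, hN, hmem⟩ := h5 K K' S hb haux
  rw [← aa_jK S] at hC hmem
  exact ⟨aa S x₀, VV S, S.tau0, D.model_eta hC hN hmem⟩

end Fermat.Agent.S36.Inst

end
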