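/-
S36, modular instance of the abstract model (owner helper253): `nodeBase : NodeBase`, i.e. the blocks
L0, VAL, HALF, SYM, DICH of helper98's contract for the concrete objects of `Mod.Setup`, from the
landed leaves:
* L0    `BAD/LevelQ/Mod/SetupL0.lean` (helper39, helper249, helper7, helper217)
* VAL   `S36/Mod/Val/Main.lean` (helper156, helper63, helper88, helper237, helper287, ...)
* HALF  `S36/Mod/HalfInst/Fields.lean` (helper154)
* BASE  `S36/Mod/Base/Main.lean` (helper167, helper13, helper208), INT `Lib/ModEq` (helper254)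
-/
import Fermat.Agent.S36.Inst.Eta
import Fermat.Agent.BAD.LevelQ.Mod.SetupL0
import Fermat.Agent.S36.Mod.Val.Main
import Fermat.Agent.S36.Mod.HalfInst.Fields
import Fermat.Agent.S36.Mod.Base.Main
import Fermat.Agent.Lib.ModEq.Field

set_option autoImplicit false
set_option linter.unusedSectionVars false

noncomputable section

namespace Fermat.Agent.S36.Inst

open ModularCurve Fermat.Agent.S24 Fermat.Agent.S18 Fermat.Agent.S36.Mod Fermat.Agent.S36.BP
  Fermat.Agent.BAD.Model

variable {K K' : Type*} [Field K] [Field K'] [Algebra ℚ K] [Algebra ℚ K'] [Algebra K Kbar]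
  [Algebra K' Kbar] (S : Setup K K')

theorem jK_eq_JK (N : ℕ) : jK K N = JK K N 1 (one_dvd _) := by
  apply Subtype.ext
  show coeffEmb K jq = Js K 1
  rw [Js, qExpand_one_apply]

/-- `j` of level `N0`, composed with `z ↦ q² z`, is `J2qq`. -/
theorem bb_jK : bb S (jK K S.N0) = S.J2qq := by
  have h1 : S.q * 1 ∣ S.N0 * S.q := by
    rw [mul_one]
    exact Dvd.intro_left _ rfl
  have h2 : S.q * (S.q * 1) ∣ S.N0 * S.q * S.q := by
    rw [mul_comm S.q (S.q * 1)]
    exact Nat.mul_dvd_mul_right h1 S.q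
  rw [bb_apply, jK_eq_JK, Setup.be0, be_JK S.N0 S.q 1 (one_dvd _) h1, Setup.be1,
    be_JK (S.N0 * S.q) S.q (S.q * 1) h1 h2, Setup.J2qq]
  exact JK_congr K _ (by ring) _ _

theorem J2q_mem_chart : J2q S ∈ chart S.B.toSubring S.J2one :=
  Lib.ModEq.JK_mul_mem_chart K S.B.toSubring S.q S.hq _ 1 _ _

theorem J2one_mem_chart : S.J2one ∈ chart S.B.toSubring (J2q S) :=
  Lib.ModEq.JK_mem_chart_mul K S.B.toSubring S.q S.hq _ 1 _ _

theorem J2qq_mem_chart' : S.J2qq ∈ chart S.B.toSubring (J2q S) :=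
  Lib.ModEq.JK_mul_mem_chart K S.B.toSubring S.q S.hq _ (1 * S.q) _ _

theorem J2q_mem_chart' : J2q S ∈ chart S.B.toSubring S.J2qq :=
  Lib.ModEq.JK_mem_chart_mul K S.B.toSubring S.q S.hq _ (1 * S.q) _ _

theorem J2qq_mem_chart : S.J2qq ∈ chart S.B.toSubring S.J2one :=
  Build.chart_le_of_mem _ (J2q_mem_chart S) (J2qq_mem_chart' S)

theorem J2one_mem_chart'' : S.J2one ∈ chart S.B.toSubring S.J2qq :=
  Build.chart_le_of_mem _ (J2q_mem_chart' S) (J2one_mem_chart S)

theorem ib_j_mem : S.ib S.j0 ∈ chart S.B.toSubring (S.ia S.j0) := by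
  have h1 : S.ib S.j0 = S.J2qq := bb_jK S
  have h2 : S.ia S.j0 = S.J2one := aa_jK S
  rw [h1, h2]
  exact J2qq_mem_chart S

theorem ia_j_mem : S.ia S.j0 ∈ chart S.B.toSubring (S.ib S.j0) := by
  have h1 : S.ib S.j0 = S.J2qq := bb_jK S
  have h2 : S.ia S.j0 = S.J2one := aa_jK S
  rw [h1, h2]
  exact J2one_mem_chart'' S

theorem etaBase (hb : BaseHyp S.B S.q) (D : BaseData S.N0 S.q) (hD : S.BaseRel D) :
    EtaBase S.B S.q S.ia S.ib (D.xK K) S.j0 S.V0 S.VV S.tau0
      S.al1.toRingHom.fieldRange S.be1.toRingHom.fieldRange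
      (embNorm S.al1.toRingHom) (embNorm S.be1.toRingHom) where
  base := hb
  transc₀ := S.transc₀ D
  finite := S.finite_a D
  finite_b := S.finite_b D
  unifw := S.unifw
  const₀ := S.const₀
  x_unit₀ := S.x_unit₀ D
  chart₁ := S.chart₁ D
  chart₂ := S.chart₂ D
  comap_a := S.comap_a
  comap_b := S.comap_b
  complete := S.complete_a
  complete_b := S.complete_b
  inj := S.VV_injective
  unif0 := S.unif0
  unif1 := S.unif1
  unif2 := S.unif2
  ram1 := S.ram1
  dense0a := S.dense0a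
  dense1a := S.dense1a
  dense1b := S.dense1b
  dense2b := S.dense2b
  range_a := fun f => ⟨S.al0 f, rfl⟩
  range_b := fun f => ⟨S.be0 f, rfl⟩
  normα_const := S.norm_al1_const
  normβ_const := S.norm_be1_const
  halfα := S.halfα
  halfβ := S.halfβ
  normα_int := fun z b hb => S.norm_al1_int (S.al0 z) b hb
  normβ_int := fun z b hb => S.norm_be1_int (S.be0 z) b hb
  sym_ab := S.sym_ab_of D (ib_j_mem S) (ia_j_mem S) hD
  sym_ba := S.sym_ba_of D (ib_j_mem S) (ia_j_mem S) hD
  dich := fun R hR h => (hD S.ia R hR).1 h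

theorem nodeBase : NodeBase := by
  intro K K' _ _ _ _ _ _ S hb haux
  obtain ⟨D, hD⟩ := S.exists_base haux
  exact ⟨D.xK K, etaBase S hb D hD⟩

end Fermat.Agent.S36.Inst

end
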