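/-
S36, modular instance, node N0 SETUP (helper96): one-line wrapper of `Mod.exists_setup`
(proved by helper61 in `S36/Mod/Inst.lean`).
-/
import Fermat.Agent.S36.Inst.Nodes
import Fermat.Agent.S36.Mod.Inst

set_option autoImplicit false

namespace Fermat.Agent.S36.Inst

theorem nodeSetup : NodeSetup :=
  fun K _ _ _ A₀ q N₀ _ hb hq => Fermat.Agent.S36.Mod.exists_setup K A₀ q N₀ hb hq

end Fermat.Agent.S36.Inst
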