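/-
S36, modular instance of the abstract model (owner helper253): **`S36.ModelStatement`**, route (η).
-/
import Fermat.Agent.S36.Inst.Eta
import Fermat.Agent.S36.Inst.Base
import Fermat.Agent.S36.Inst.SetupExists
import Fermat.Agent.S36.Inst.Cusp.Data
import Fermat.Agent.BAD.Model.EtaInst.Main

set_option autoImplicit false

namespace Fermat.Agent.S36.Inst

/-- **The modular instance of the abstract model of `X₀(N₀ q²)`.** -/
theorem modelStatement : ModelStatement :=
  modelStatement_of_eta nodeSetup nodeBase nodeCusp BAD.Model.EtaInst.nodeNonCusp

end Fermat.Agent.S36.Inst
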