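/-
S36, modular instance of the abstract model, node N4 GOODBELOW-INST (helper63).
`nodeGood : NodeGood`: near every closed point each component of level `N0 q q` is a copy of the
good model of level `N0`.

* `goodBelow_pair` (abstract): a pair of good charts `chart A₀ x₀`, `chart A₀ x₀⁻¹` of the lower
  field, an embedding `ι`, a component `W` above `Ow` of residue degree one, and a closed point `R`
  with `ι x₀ ∈ R` or `(ι x₀)⁻¹ ∈ R`.
* the base coordinate `x₀` is the Hauptmodul of level 4 or 9 (`S.exists_base`), related to `j` by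
  `BaseRel`; `j(z)`, `j(q z)`, `j(q² z)` are integral over each other (modular equation).
-/
import Fermat.Agent.S36.Inst.Nodes
import Fermat.Agent.S36.Inst.Good.Level1
import Fermat.Agent.S36.Inst.Cusp.Comp
import Fermat.Agent.S36.Mod.Base.Main
import Fermat.Agent.S36.Mod.L0.Chart
import Fermat.Agent.S36.Mod.Dense1
import Fermat.Agent.BAD.Model.Input.GoodBelow
import Fermat.Agent.Lib.ModEq.Field
import Fermat.Agent.S36.BP.Build.ChartMap

set_option autoImplicit false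
set_option linter.unusedSectionVars false

noncomputable section

namespace Fermat.Agent.S36.Inst

open ModularCurve Fermat.Agent.S24 Fermat.Agent.S18 Fermat.Agent.S36.Mod Fermat.Agent.S36.BP
  Fermat.Agent.BAD.Model

namespace Good

section Abs

variable {K₀ F₀ F : Type*} [Field K₀] [Field F₀] [Field F] [Algebra K₀ F₀] [Algebra K₀ F]

/-- the abstract form of N4. -/
theorem goodBelow_pair {A₀ : ValuationSubring K₀} (ι : F₀ →ₐ[K₀] F) {Ow : ValuationSubring F₀}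
    {ϖ x₀ : F₀} (hU : IsUnif Ow ϖ) (h1 : IsChart Ow ϖ (chart A₀.toSubring x₀))
    (h2 : IsChart Ow ϖ (chart A₀.toSubring x₀⁻¹)) {W : ValuationSubring F}
    (hW : W.comap (ι : F₀ →+* F) = Ow) (hd : ∀ y ∈ W, ∃ y₀ : F₀, W.valuation (ι y₀ - y) < 1)
    {R : Subring F} (hR : IsPt A₀ R) (hle : ∀ r ∈ R, r ∈ W) (hx : ι x₀ ∈ R ∨ (ι x₀)⁻¹ ∈ R) :
    GoodBelow W (ι : F₀ →+* F).fieldRange R := by
  rcases hx with hx | hx
  · exact goodBelow_of_isChart (ι : F₀ →+* F) hU h1 hW hd hR hle fun b hb =>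
      Seidenberg.chart_le_of_mem_pt hR hx _ (Build.map_mem_chart ι _ _ _ hb)
  · refine goodBelow_of_isChart (ι : F₀ →+* F) hU h2 hW hd hR hle fun b hb =>
      Seidenberg.chart_le_of_mem_pt hR hx _ ?_
    have := Build.map_mem_chart ι _ _ _ hb
    rwa [map_inv₀] at this

end Abs

variable {K K' : Type*} [Field K] [Field K'] [Algebra ℚ K] [Algebra ℚ K'] [Algebra K Kbar]
  [Algebra K' Kbar] (S : Setup K K')

theorem aa_j0 : aa S S.j0 = S.J2one := S.ci_al1_al0_jK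

theorem bb_j0 : bb S S.j0 = S.J2qq := S.ci_be1_be0_jK

theorem J2q_mem_one : J2q S ∈ chart S.B.toSubring S.J2one :=
  Lib.ModEq.JK_mul_mem_chart K S.B.toSubring S.q S.hq (S.N0 * S.q * S.q) 1 _ _

theorem J2one_mem_q : S.J2one ∈ chart S.B.toSubring (J2q S) :=
  Lib.ModEq.JK_mem_chart_mul K S.B.toSubring S.q S.hq (S.N0 * S.q * S.q) 1 _ _

theorem J2qq_mem_q : S.J2qq ∈ chart S.B.toSubring (J2q S) :=
  Lib.ModEq.JK_mul_mem_chart K S.B.toSubring S.q S.hq (S.N0 * S.q * S.q) (1 * S.q) _ _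

theorem J2q_mem_qq : J2q S ∈ chart S.B.toSubring S.J2qq :=
  Lib.ModEq.JK_mem_chart_mul K S.B.toSubring S.q S.hq (S.N0 * S.q * S.q) (1 * S.q) _ _

/-- "finite or infinite" passes from `j(z)` to `j(q² z)`. -/
theorem fin_J2qq {R : Subring S.F2} (hR : IsPt S.B R) (h : S.J2one ∈ R ∨ S.J2one⁻¹ ∈ rad R) :
    S.J2qq ∈ R ∨ S.J2qq⁻¹ ∈ rad R := by
  obtain ⟨c, D⟩ := S.exists_cuspData
  have h0 : S.J2one ≠ 0 := fun h => D.ne (by rw [h, inv_zero])
  have h1 : J2q S ≠ 0 := fun h => D.ne' (by rw [h, inv_zero])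
  exact Setup.fin_of_integral hR h1 (J2qq_mem_q S) (J2q_mem_qq S)
    (Setup.fin_of_integral hR h0 (J2q_mem_one S) (J2one_mem_q S) h)

theorem goodBelow_aa (hb : BaseHyp S.B S.q) (haux : Aux S) {R : Subring S.F2} (hR : IsPt S.B R)
    (h : S.J2one ∈ R ∨ S.J2one⁻¹ ∈ rad R) {W : ValuationSubring S.F2}
    (hW : W.comap ((aa S : S.F0 →ₐ[K] S.F2) : S.F0 →+* S.F2) = S.V0)
    (hd : ∀ y ∈ W, ∃ y₀ : S.F0, W.valuation (aa S y₀ - y) < 1) (hle : ∀ r ∈ R, r ∈ W) :
    GoodBelow W (aa S).toRingHom.fieldRange R := by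
  obtain ⟨D, hD⟩ := S.exists_base haux
  exact goodBelow_pair (aa S) (isUnif_V0 S) (S.chart₁ D) (S.chart₂ D) hW hd hR hle
    ((hD (aa S) R hR).2 (by rwa [aa_j0]))

theorem goodBelow_bb (hb : BaseHyp S.B S.q) (haux : Aux S) {R : Subring S.F2} (hR : IsPt S.B R)
    (h : S.J2one ∈ R ∨ S.J2one⁻¹ ∈ rad R) {W : ValuationSubring S.F2}
    (hW : W.comap ((bb S : S.F0 →ₐ[K] S.F2) : S.F0 →+* S.F2) = S.V0)
    (hd : ∀ y ∈ W, ∃ y₀ : S.F0, W.valuation (bb S y₀ - y) < 1) (hle : ∀ r ∈ R, r ∈ W) :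
    GoodBelow W (bb S).toRingHom.fieldRange R := by
  obtain ⟨D, hD⟩ := S.exists_base haux
  exact goodBelow_pair (bb S) (isUnif_V0 S) (S.chart₁ D) (S.chart₂ D) hW hd hR hle
    ((hD (bb S) R hR).2 (by rw [bb_j0]; exact fin_J2qq S hR h))

end Good

/-- **N4**, for arbitrary universes. -/
theorem goodBelow_VV {K K' : Type*} [Field K] [Field K'] [Algebra ℚ K] [Algebra ℚ K']
    [Algebra K Kbar] [Algebra K' Kbar] (S : Setup K K') (hb : BaseHyp S.B S.q) (haux : Aux S)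
    (R : Subring S.F2) (hR : IsPt S.B R) (h : S.J2one ∈ R ∨ S.J2one⁻¹ ∈ rad R) (i : Fin 3)
    (hle : ∀ r ∈ R, r ∈ VV S i) : GoodBelow (VV S i) (EE S i) R := by
  fin_cases i
  · exact Good.goodBelow_aa S hb haux hR h (Good.comap_aa S 0) S.dense_V20_aa hle
  · exact Good.goodBelow_aa S hb haux hR h (Good.comap_aa S 1) S.dense_V11_aa hle
  · exact Good.goodBelow_bb S hb haux hR h (Good.comap_bb S 2) S.dense_V02_bb hle

/-- **N4 GOODBELOW-INST.** -/
theorem nodeGood : NodeGood := by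
  intro K K' _ _ _ _ _ _ S hb haux R hR h i hi
  exact goodBelow_VV S hb haux R hR.isPt h i hi.1

end Fermat.Agent.S36.Inst

end
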