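/-
S36, modular instance of the abstract model: node N2 HALF (helper154).
-/
import Fermat.Agent.S36.Inst.Nodes
import Fermat.Agent.S36.Mod.HalfInst.Fields

set_option autoImplicit false

namespace Fermat.Agent.S36.Inst

open Fermat.Agent.S36.Mod

theorem nodeHalf : NodeHalf := fun _ _ _ _ _ _ _ _ S =>
  ⟨S.halfα, S.halfβ, S.norm_al1_const, S.norm_be1_const⟩

end Fermat.Agent.S36.Inst
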