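/-
S36, modular instance of the abstract model, node N1 PRE-INST (helper96, deputy of helper249):
`nodePre : NodePre`, the global part of the model of level `N0 q q` with the coordinate `j`.

Route: `S18.isVert_j` (the Gauss valuation is the only vertical valuation of level `N0` relative to
`K(j)`), `LevelQ.isMVert_tower` along `aa S = al1 ∘ al0` with `complete_a`, `LevelQ.chart_qep`.
-/
import Fermat.Agent.S36.Inst.Nodes
import Fermat.Agent.S36.Mod.Val.Main
import Fermat.Agent.S36.Mod.Val.Cusp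
import Fermat.Agent.BAD.LevelQ.Mod.SetupGauss
import Fermat.Agent.BAD.LevelQ.Mod.Deg
import Fermat.Agent.BAD.LevelQ.Abs.Mem
import Fermat.Agent.BAD.LevelQ.Abs.Change
import Fermat.Agent.BAD.LevelQ.Abs.Tower
import Fermat.Agent.BAD.LevelQ.Abs.Coord
import Fermat.Agent.S36.BP.Build.UpQep
import Fermat.Agent.S18.Base.J
import Fermat.Agent.S18.Base.Coord
import Fermat.Agent.S18.Gauss.VertJ

set_option autoImplicit false
set_option linter.unusedSectionVars false

noncomputable section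

namespace Fermat.Agent.S36.Inst

open ModularCurve Fermat.Agent.S24 Fermat.Agent.S18 Fermat.Agent.S36.Mod Fermat.Agent.S36.BP
  Fermat.Agent.BAD.Model Fermat.Agent.BAD.LevelQ IntermediateField Polynomial

/-! ### `j` is a coordinate with transcendental reduction at the Gauss valuation -/

section Coord

variable {K₀ : Type*} [Field K₀] [Algebra ℚ K₀] {A₀ : ValuationSubring K₀} {ϖ₀ : K₀}

theorem pre_castJ_mem (M : ℕ) :
    coeffMap (Int.castRingHom K₀) (jqModC ℤ) ∈ FK K₀ M := by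
  have h : coeffMap (Int.castRingHom K₀) (jqModC ℤ) = ((jK K₀ M : FK K₀ M) : LaurentSeries K₀) := by
    rw [Gauss.coe_jK, coeffMap_jqModC]
  rw [h]
  exact (jK K₀ M).2

theorem pre_jK_eq (M : ℕ) : jK K₀ M = ⟨_, pre_castJ_mem (K₀ := K₀) M⟩ := by
  apply Subtype.ext
  show ((jK K₀ M : FK K₀ M) : LaurentSeries K₀) = coeffMap (Int.castRingHom K₀) (jqModC ℤ)
  rw [Gauss.coe_jK, coeffMap_jqModC]

theorem pre_isCoord_j (h₀ : IsUnif A₀ ϖ₀) (M : ℕ) {Ow : ValuationSubring (FK K₀ M)}
    (hG : IsGauss A₀ ϖ₀ (FK K₀ M) Ow) : IsCoord A₀ ϖ₀ Ow K₀⟮jK K₀ M⟯ (jK K₀ M) where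
  adjoin_eq := rfl
  mem := by
    rw [pre_jK_eq]
    exact Coord.mem_of_gauss hG (pre_castJ_mem M)
  transc := by
    intro p hp hdiv i
    rw [pre_jK_eq] at hdiv
    exact Coord.transc_of_gauss h₀ hG BaseJ.jqModC_mul_jInvZ BaseJ.order_jqModC_ne (pre_castJ_mem M) p hp
      hdiv i

end Coord

variable {K K' : Type*} [Field K] [Field K'] [Algebra ℚ K] [Algebra ℚ K'] [Algebra K Kbar]
  [Algebra K' Kbar] (S : Setup K K')

theorem pre_VV_eq : VV S = S.VV := rfl

theorem pre_aa_eq : aa S = S.ia := rfl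

theorem pre_aa_j : aa S (jK K S.N0) = S.J2one := S.ia_j0

theorem pre_div_mem : ((S.q : ℕ) : K) / ((S.q : ℕ) : K) ∈ S.B := by
  have : CharZero K := algebraRat.charZero K
  rw [div_self (Nat.cast_ne_zero.2 S.hq.ne_zero)]
  exact S.B.one_mem

/-- level `N0`: the Gauss valuation is the only vertical valuation relative to `K(j)` -/
theorem pre_isVert_j : IsVert S.B ((S.q : ℕ) : K) S.V0 K⟮jK K S.N0⟯ := by
  have : Fact S.q.Prime := ⟨S.hq⟩
  obtain ⟨U, -, -⟩ := S28.Export.exists_good_UData S.N0 S.q S.hqN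
  exact isVert_j S.isUnif_B S.hqN (pre_div_mem S) U S.isGauss_V0

theorem pre_isMCoord_j0 : IsMCoord S.B S.V0 (jK K S.N0) :=
  isMCoord_of_isCoord S.isUnif_B S.isGauss_V0.unif (pre_isCoord_j S.isUnif_B S.N0 S.isGauss_V0)

/-- abstract form (a bare `rfl` at the level of `S.F2` is too heavy for the kernel) -/
theorem pre_mem_comap_aux {R F₀ F : Type*} [CommSemiring R] [Field F₀] [Field F] [Algebra R F₀]
    [Algebra R F] (W : ValuationSubring F) (φ : F₀ →ₐ[R] F) (U : ValuationSubring F₀)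
    (h : W.comap (φ : F₀ →+* F) = U) (y : F₀) : φ y ∈ W ↔ y ∈ U := by
  rw [← h]
  rfl

theorem pre_mem_iff (c : Fin 3) (y : S.F0) : aa S y ∈ VV S c ↔ y ∈ S.V0 :=
  pre_mem_comap_aux (VV S c) (aa S) S.V0 (S.comap_a c) y

theorem pre_val_lt_iff (c : Fin 3) (y : S.F0) :
    (VV S c).valuation (aa S y) < 1 ↔ S.V0.valuation y < 1 := by
  rw [change_val_lt_one_iff, change_val_lt_one_iff, ← map_inv₀, pre_mem_iff, map_eq_zero]

theorem pre_isMCoord (c : Fin 3) : IsMCoord S.B (VV S c) S.J2one := by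
  rw [← pre_aa_j]
  refine ⟨(pre_mem_iff S c _).2 (pre_isMCoord_j0 S).mem, fun p hp hlt => ?_⟩
  rw [Polynomial.aeval_algHom_apply, pre_val_lt_iff] at hlt
  exact (pre_isMCoord_j0 S).transc p hp hlt

theorem pre_finite_comp {R F₀ F₁ F₂ : Type*} [CommSemiring R] [Field F₀] [Field F₁] [Field F₂]
    [Algebra R F₀] [Algebra R F₁] [Algebra R F₂] (φ : F₀ →ₐ[R] F₁) (ψ : F₁ →ₐ[R] F₂)
    (h1 : letI := φ.toRingHom.toAlgebra; FiniteDimensional F₀ F₁)
    (h2 : letI := ψ.toRingHom.toAlgebra; FiniteDimensional F₁ F₂) :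
    letI := (ψ.comp φ).toRingHom.toAlgebra; FiniteDimensional F₀ F₂ := by
  let _ := φ.toRingHom.toAlgebra
  let _ := ψ.toRingHom.toAlgebra
  let _ := (ψ.comp φ).toRingHom.toAlgebra
  have : IsScalarTower F₀ F₁ F₂ := IsScalarTower.of_algebraMap_eq fun _ => rfl
  have : Module.Finite F₀ F₁ := h1
  have : Module.Finite F₁ F₂ := h2
  exact Module.Finite.trans F₁ F₂

theorem pre_finite_aa : letI := (aa S).toRingHom.toAlgebra; FiniteDimensional S.F0 S.F2 :=
  pre_finite_comp S.al0 S.al1 Mod.finite_al Mod.finite_al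

theorem pre_lt_one (c : Fin 3) : (VV S c).valuation (algebraMap K S.F2 ((S.q : ℕ) : K)) < 1 := by
  rw [← (aa S).commutes, pre_val_lt_iff]
  exact tow_valuation_lt_one S.isGauss_V0.unif

theorem pre_integral (y : S.F2) (hy : ∀ c, y ∈ VV S c) :
    ∃ p : S.F0[X], p.Monic ∧ (∀ i, p.coeff i ∈ S.V0) ∧ (p.map (aa S).toRingHom).eval y = 0 := by
  have halg : ∀ z : S.F2, (aa S).toRingHom.IsIntegralElem z := by
    intro z
    let _ := (aa S).toRingHom.toAlgebra
    have : FiniteDimensional S.F0 S.F2 := pre_finite_aa S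
    exact Algebra.IsIntegral.isIntegral (R := S.F0) z
  have h1 := Build.isIntegral_of_complete (aa S).toRingHom (VV S) halg S.isGauss_V0.unif
    S.complete_a hy
  obtain ⟨p, hp, hp0⟩ := (Build.isIntegral_map_iff _ _ _).1 h1
  refine ⟨p.map S.V0.toSubring.subtype, hp.map _, fun i => ?_, ?_⟩
  · rw [coeff_map]
    exact (p.coeff i).2
  · rw [Polynomial.map_map, Polynomial.eval_map]
    exact hp0

theorem pre_isMVert : IsMVert S.B ((S.q : ℕ) : K) (VV S) K⟮S.J2one⟯ := by
  have h := isMVert_tower (V := VV S) (aa S) (pre_isVert_j S) (pre_finite_aa S)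
    (fun c y hy => (pre_mem_iff S c y).2 hy) (pre_lt_one S) (pre_integral S)
  rwa [pre_aa_j] at h

theorem preModel (hb : BaseHyp S.B S.q) : PreModel S.B S.q S.J2one (VV S) S.tau0 where
  base := hb
  transc := (pre_isMCoord S 0).transcendental
  finite := (pre_isMVert S).finite
  const_mem := (pre_isMVert S).const_mem
  x_unit := S.J2one_unit
  gauss := fun c => (pre_isMCoord S c).transc
  inj := S.VV_injective
  unif0 := S.unif0
  unif1 := S.unif1
  unif2 := S.unif2
  ram1 := S.ram1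
  qep₁ := fun y h hy => by
    refine chart_qep (pre_isMVert S) (pre_isMCoord S) y ?_ hy
    rwa [map_natCast]
  qep₂ := fun y h hy => by
    refine chart_qep (pre_isMVert S).inv (fun c => (pre_isMCoord S c).inv) y ?_ hy
    rwa [map_natCast]

/-- **N1 PRE-INST.** -/
theorem nodePre : NodePre := fun _ _ _ _ _ _ _ _ S hb => preModel S hb

end Fermat.Agent.S36.Inst

end
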