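/-
S36, instance of the model, node N1 (shadow by helper36): the global part of the model of level
`N0 q q` with the coordinate `j`.
-/
import Fermat.Agent.S36.Inst.Nodes
import Fermat.Agent.S36.Inst.Good.Level1
import Fermat.Agent.S36.Inst.Cusp.Comp
import Fermat.Agent.S36.Mod.HalfInst.Main
import Fermat.Agent.BAD.LevelQ.Mod.SetupGauss
import Fermat.Agent.BAD.LevelQ.Mod.Deg
import Fermat.Agent.BAD.LevelQ.Abs.Mem
import Fermat.Agent.BAD.LevelQ.Abs.Tower
import Fermat.Agent.BAD.LevelQ.Abs.Coord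
import Fermat.Agent.BAD.LevelQ.Abs.Change
import Fermat.Agent.S36.BP.Build.UpQep
import Fermat.Agent.S36.BP.Build.UpDense
import Fermat.Agent.S18.Gauss.VertJ
import Fermat.Agent.S18.Base.Coord
import Fermat.Agent.S18.Base.J

set_option autoImplicit false
set_option linter.unusedSectionVars false
set_option linter.style.haveILetI false

noncomputable section

namespace Fermat.Agent.S36.Inst.PreAlt

open ModularCurve Fermat.Agent.S24 Fermat.Agent.S18 Fermat.Agent.S36.Mod Fermat.Agent.S36.BP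
  Fermat.Agent.BAD.Model Fermat.Agent.BAD.LevelQ IntermediateField Polynomial

variable {K K' : Type*} [Field K] [Field K'] [Algebra ℚ K] [Algebra ℚ K'] [Algebra K Kbar]
  [Algebra K' Kbar] (S : Setup K K')

theorem div_self_mem : ((S.q : ℕ) : K) / ((S.q : ℕ) : K) ∈ S.B := by
  have : CharZero K := algebraRat.charZero K
  rw [div_self (Nat.cast_ne_zero.2 S.hq.ne_zero)]
  exact S.B.one_mem

theorem isVert_j0 : IsVert S.B ((S.q : ℕ) : K) S.V0 K⟮jK K S.N0⟯ := by
  have : Fact S.q.Prime := ⟨S.hq⟩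
  obtain ⟨U, -, -⟩ := S28.Export.exists_good_UData S.N0 S.q S.hqN
  exact isVert_j S.isUnif_B S.hqN (div_self_mem S) U S.isGauss_V0

theorem cast_mem : coeffMap (Int.castRingHom K) (jqModC ℤ) ∈ FK K S.N0 := by
  have h := (jK K S.N0).2
  rwa [Gauss.coe_jK, ← coeffMap_jqModC (Int.castRingHom K)] at h

theorem jK_eq : jK K S.N0 = ⟨_, cast_mem S⟩ := by
  apply Subtype.ext
  rw [Gauss.coe_jK, ← coeffMap_jqModC (Int.castRingHom K)]

theorem isCoord_j0 : IsCoord S.B ((S.q : ℕ) : K) S.V0 K⟮jK K S.N0⟯ (jK K S.N0) where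
  adjoin_eq := rfl
  mem := by
    rw [jK_eq]
    exact Coord.mem_of_gauss S.isGauss_V0 (cast_mem S)
  transc := by
    intro p hp hdiv i
    rw [jK_eq] at hdiv
    exact Coord.transc_of_gauss S.isUnif_B S.isGauss_V0 BaseJ.jqModC_mul_jInvZ
      BaseJ.order_jqModC_ne (cast_mem S) p hp hdiv i

theorem isMCoord_j0 : IsMCoord S.B S.V0 (jK K S.N0) :=
  isMCoord_of_isCoord S.isUnif_B S.isGauss_V0.unif (isCoord_j0 S)

/-! ### transport to level `N0 q q` -/

theorem aa_j0 : aa S (jK K S.N0) = S.J2one := S.ci_al1_al0_jK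

theorem mem_VV_iff (c : Fin 3) (f : S.F0) : aa S f ∈ VV S c ↔ f ∈ S.V0 :=
  (Build.mem_iff_of_comap_eq (Good.comap_aa S c) f).symm

theorem val_lt_one_iff (c : Fin 3) (f : S.F0) :
    (VV S c).valuation (aa S f) < 1 ↔ S.V0.valuation f < 1 :=
  (Build.val_lt_one_iff_of_comap_eq (Good.comap_aa S c) f).symm

theorem isMCoord_J2one (c : Fin 3) : IsMCoord S.B (VV S c) S.J2one := by
  rw [← aa_j0]
  refine ⟨(mem_VV_iff S c _).2 (isMCoord_j0 S).mem, fun p hp hlt i => ?_⟩
  rw [Polynomial.aeval_algHom_apply, val_lt_one_iff] at hlt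
  exact (isMCoord_j0 S).transc p hp hlt i

theorem finite_aa : letI := (aa S).toRingHom.toAlgebra; FiniteDimensional S.F0 S.F2 := by
  letI a0 : Algebra S.F0 S.F1 := S.al0.toRingHom.toAlgebra
  letI a1 : Algebra S.F1 S.F2 := S.al1.toRingHom.toAlgebra
  letI a2 : Algebra S.F0 S.F2 := (aa S).toRingHom.toAlgebra
  have : IsScalarTower S.F0 S.F1 S.F2 := IsScalarTower.of_algebraMap_eq fun _ => rfl
  have h0 : Module.Finite S.F0 S.F1 := Mod.finite_al
  have h1 : Module.Finite S.F1 S.F2 := Mod.finite_al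
  exact Module.Finite.trans S.F1 S.F2

theorem q_lt_one (c : Fin 3) : (VV S c).valuation (algebraMap K S.F2 ((S.q : ℕ) : K)) < 1 := by
  have h : algebraMap K S.F2 ((S.q : ℕ) : K) = aa S (algebraMap K S.F0 ((S.q : ℕ) : K)) :=
    ((aa S).commutes _).symm
  rw [h, val_lt_one_iff]
  exact valuation_unif_lt_one S.isGauss_V0.unif

theorem integral_aa (y : S.F2) (hy : ∀ c, y ∈ VV S c) :
    ∃ p : S.F0[X], p.Monic ∧ (∀ i, p.coeff i ∈ S.V0) ∧ (p.map (aa S).toRingHom).eval y = 0 := by
  have halg : ∀ z : S.F2, (aa S).toRingHom.IsIntegralElem z := by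
    intro z
    letI a2 : Algebra S.F0 S.F2 := (aa S).toRingHom.toAlgebra
    have : FiniteDimensional S.F0 S.F2 := finite_aa S
    exact Algebra.IsIntegral.isIntegral (R := S.F0) z
  have h1 := Build.isIntegral_of_complete (aa S).toRingHom (VV S) halg S.isGauss_V0.unif
    (Good.complete_aa S) hy
  obtain ⟨p, hp, hp0⟩ := (Build.isIntegral_map_iff _ _ _).1 h1
  refine ⟨p.map S.V0.toSubring.subtype, hp.map _, fun i => ?_, ?_⟩
  · rw [coeff_map]
    exact (p.coeff i).2
  · rw [Polynomial.map_map, eval_map]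
    exact hp0

theorem isMVert_J2one : IsMVert S.B ((S.q : ℕ) : K) (VV S) K⟮S.J2one⟯ := by
  rw [← aa_j0]
  exact isMVert_tower (aa S) (isVert_j0 S) (finite_aa S)
    (fun c y hy => (mem_VV_iff S c y).2 hy) (q_lt_one S) (integral_aa S)

theorem transc_J2one : Transcendental K S.J2one := by
  rintro ⟨p, hp, h0⟩
  refine Coord.transcendental_coeffMap BaseJ.jqModC_mul_jInvZ BaseJ.order_jqModC_ne
    (Int.castRingHom K) ⟨p, hp, ?_⟩
  have h := congrArg (S.F2).val h0
  rw [← Polynomial.aeval_algHom_apply, map_zero] at h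
  have e : (S.F2).val S.J2one = jqModC K := by
    show ((S.J2one : S.F2) : LaurentSeries K) = _
    rw [S.ci_coe_J2one, qExpand_one_apply]
  rw [coeffMap_jqModC, ← e]
  exact h

theorem preModel (hb : BaseHyp S.B S.q) : PreModel S.B S.q S.J2one (VV S) S.tau0 where
  base := hb
  transc := transc_J2one S
  finite := (isMVert_J2one S).finite
  const_mem := (isMVert_J2one S).const_mem
  x_unit := fun c => (isMCoord_J2one S c).valuation_eq_one
  gauss := fun c => (isMCoord_J2one S c).transc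
  inj := S.injective_VV
  unif0 := S.isUnif_V20
  unif1 := S.isUnif_V11
  unif2 := S.isUnif_V02
  ram1 := S.ram_V11
  qep₁ := fun y h hy => by
    refine chart_qep (isMVert_J2one S) (isMCoord_J2one S) y ?_ hy
    rwa [map_natCast]
  qep₂ := fun y h hy => by
    refine chart_qep (isMVert_J2one S).inv (fun c => (isMCoord_J2one S c).inv) y ?_ hy
    rwa [map_natCast]

/-- **N1.** -/
theorem nodePre : NodePre := fun _ _ _ _ _ _ _ _ S hb => preModel S hb

end Fermat.Agent.S36.Inst.PreAlt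

end
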