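/-
S36, modular instance of the abstract model, layer TOP (owner helper253).
`modelStatement_of_nodes : N0 → .. → N6 → S36.ModelStatement`, sorry-free.
Abstract inputs: `BAD/Model/Pre/*` (closed points of a `PreModel`), `BAD/Model/Cusp/*` (cuspidal
points, helper38), `BAD/Model/NonCusp/Main.lean` (non-cuspidal points, helper149).
-/
import Fermat.Agent.S36.Inst.Nodes
import Fermat.Agent.BAD.Model.Pre.Inv
import Fermat.Agent.BAD.Model.Pre.PtBase
import Fermat.Agent.BAD.Model.Pre.Overlap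
import Fermat.Agent.BAD.Model.Cusp.Dichotomy
import Fermat.Agent.BAD.Model.Cusp.Mid
import Fermat.Agent.BAD.Model.Cusp.Through
import Fermat.Agent.BAD.Model.NonCusp.Main
import Fermat.Agent.S36.BP.Loc.Basic

set_option autoImplicit false
set_option linter.unusedSectionVars false

noncomputable section

namespace Fermat.Agent.S36.Inst

open ModularCurve Fermat.Agent.S24 Fermat.Agent.S18 Fermat.Agent.S36.Mod Fermat.Agent.S36.BP
  Fermat.Agent.BAD.Model IntermediateField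

/-! ### The abstract cusp theorem and the chart form (CUSP-6 of helper38's skeleton) -/

section Abs

variable {K₀ F : Type*} [Field K₀] [Field F] [Algebra K₀ F]
variable {A₀ : ValuationSubring K₀} {q : ℕ} {x : F} {V : Fin 3 → ValuationSubring F} {ϖm : F}
variable {R : Subring F} {c : ℕ → ℕ → K₀} {s s' s'' : F}

/-- **The cusp theorem.** -/
theorem ptHyp_of_cuspData (hb : BaseHyp A₀ q) (hU0 : IsUnif (V 0) (q : F))
    (hU1 : IsUnif (V 1) ϖm) (hU2 : IsUnif (V 2) (q : F))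
    (hram : (V 1).valuation ϖm ^ (q - 1) = (V 1).valuation (q : F))
    (hR : PtBase A₀ q V R) (D : CuspData A₀ q V c s s' s'') (hs : s ∈ rad R)
    (E : Fin 3 → Subfield F) (hG : ∀ i, LeLoc R (V i) → GoodBelow (V i) (E i) R)
    (Eα Eβ : Subfield F) (Nα Nβ : F →* F) : PtHyp V Eα Eβ Nα Nβ R := by
  have main : ∀ i : Fin 3, (∀ i', i' ≠ i → Away R (V i')) → Princ R (V i) →
      PtHyp V Eα Eβ Nα Nβ R := by
    intro i hA hP
    have hL := hR.leLoc_of_away i hA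
    have hT : Through R (V i) := (hG i hL).through hR.isPt hL
    refine ⟨fun i' => ?_, ⟨i, hT, hP⟩, Or.inl ⟨i, hA⟩⟩
    by_cases hi : i' = i
    · exact Or.inl (hi ▸ hT)
    · exact Or.inr (hA i' hi)
  rcases D.trichotomy hb.prime.two_le hR hs with h | h | h
  · have hA : ∀ i', i' ≠ (0 : Fin 3) → Away R (V i') := by
      intro i' hi
      fin_cases i'
      · exact absurd rfl hi
      · exact h.2.2.1
      · exact h.2.2.2
    exact main 0 hA (princ_of_unram hR 0 hU0 hA)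
  · have hA : ∀ i', i' ≠ (1 : Fin 3) → Away R (V i') := by
      intro i' hi
      fin_cases i'
      · exact h.2.2.1
      · exact absurd rfl hi
      · exact h.2.2.2
    exact main 1 hA (h.princ hb hU1 hram hR D hs)
  · have hA : ∀ i', i' ≠ (2 : Fin 3) → Away R (V i') := by
      intro i' hi
      fin_cases i'
      · exact h.2.2.1
      · exact h.2.2.2
      · exact absurd rfl hi
    exact main 2 hA (princ_of_unram hR 2 hU2 hA)

/-- chart form: the field `pts₂` of `S36.BP.Model` from `pts₁` and the cusp theorem. -/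
theorem pts₂_of_preModel (P : PreModel A₀ q x V ϖm) (Eα Eβ : Subfield F) (Nα Nβ : F →* F)
    (h₁ : ∀ (𝔪 : Ideal (chart A₀.toSubring x)) [𝔪.IsMaximal], (q : chart A₀.toSubring x) ∈ 𝔪 →
      PtHyp V Eα Eβ Nα Nβ (locSub (chart A₀.toSubring x) 𝔪))
    (h₂ : ∀ (𝔫 : Ideal (chart A₀.toSubring x⁻¹)) [𝔫.IsMaximal],
      (q : chart A₀.toSubring x⁻¹) ∈ 𝔫 →
      (⟨x⁻¹, self_mem_chart _⟩ : chart A₀.toSubring x⁻¹) ∈ 𝔫 →
      PtHyp V Eα Eβ Nα Nβ (locSub (chart A₀.toSubring x⁻¹) 𝔫))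
    (𝔫 : Ideal (chart A₀.toSubring x⁻¹)) [𝔫.IsMaximal] (h𝔫 : (q : chart A₀.toSubring x⁻¹) ∈ 𝔫) :
    PtHyp V Eα Eβ Nα Nβ (locSub (chart A₀.toSubring x⁻¹) 𝔫) := by
  by_cases hx : (⟨x⁻¹, self_mem_chart _⟩ : chart A₀.toSubring x⁻¹) ∈ 𝔫
  · exact h₂ 𝔫 h𝔫 hx
  · obtain ⟨𝔪, h𝔪, hq, e⟩ := P.exists_point_of_inv_notMem 𝔫 h𝔫 hx
    rw [← e]
    exact h₁ 𝔪 hq

/-- **The abstract assembly**: a `PreModel`, the two `Half`, and `PtHyp` at the points of the first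
chart and at the points of the second chart where `x⁻¹` vanishes. -/
theorem model_of_preModel (P : PreModel A₀ q x V ϖm) {Eα Eβ : Subfield F} {Nα Nβ : F →* F}
    (constα : ∀ a : K₀, algebraMap K₀ F a ∈ Eα) (constβ : ∀ a : K₀, algebraMap K₀ F a ∈ Eβ)
    (normα_const : ∀ a : K₀, Nα (algebraMap K₀ F a) = algebraMap K₀ F a ^ q)
    (normβ_const : ∀ a : K₀, Nβ (algebraMap K₀ F a) = algebraMap K₀ F a ^ q)
    (halfα : Half q ϖm Eα Nα (V 0) (V 1) (V 2)) (halfβ : Half q ϖm Eβ Nβ (V 2) (V 1) (V 0))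
    (h₁ : ∀ (𝔪 : Ideal (chart A₀.toSubring x)) [𝔪.IsMaximal], (q : chart A₀.toSubring x) ∈ 𝔪 →
      PtHyp V Eα Eβ Nα Nβ (locSub (chart A₀.toSubring x) 𝔪))
    (h₂ : ∀ (𝔫 : Ideal (chart A₀.toSubring x⁻¹)) [𝔫.IsMaximal],
      (q : chart A₀.toSubring x⁻¹) ∈ 𝔫 →
      (⟨x⁻¹, self_mem_chart _⟩ : chart A₀.toSubring x⁻¹) ∈ 𝔫 →
      PtHyp V Eα Eβ Nα Nβ (locSub (chart A₀.toSubring x⁻¹) 𝔫)) :
    Model A₀ q x V ϖm Eα Eβ Nα Nβ where
  base := P.base
  transc := P.transc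
  finite := P.finite
  const_mem := P.const_mem
  x_unit := P.x_unit
  inj := P.inj
  unif0 := P.unif0
  unif1 := P.unif1
  unif2 := P.unif2
  ram1 := P.ram1
  qep₁ := P.qep₁
  qep₂ := P.qep₂
  constα := constα
  constβ := constβ
  normα_const := normα_const
  normβ_const := normβ_const
  halfα := halfα
  halfβ := halfβ
  pts₁ := h₁
  pts₂ := fun 𝔫 _ h𝔫 => pts₂_of_preModel P Eα Eβ Nα Nβ h₁ h₂ 𝔫 h𝔫

/-- **The abstract assembly, second form**: all the local inputs. -/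
theorem model_of_data (P : PreModel A₀ q x V ϖm) {Eα Eβ : Subfield F} {Nα Nβ : F →* F}
    (constα : ∀ a : K₀, algebraMap K₀ F a ∈ Eα) (constβ : ∀ a : K₀, algebraMap K₀ F a ∈ Eβ)
    (normα_const : ∀ a : K₀, Nα (algebraMap K₀ F a) = algebraMap K₀ F a ^ q)
    (normβ_const : ∀ a : K₀, Nβ (algebraMap K₀ F a) = algebraMap K₀ F a ^ q)
    (halfα : Half q ϖm Eα Nα (V 0) (V 1) (V 2)) (halfβ : Half q ϖm Eβ Nβ (V 2) (V 1) (V 0))
    (E : Fin 3 → Subfield F)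
    (hG : ∀ R : Subring F, PtBase A₀ q V R → (x ∈ R ∨ x⁻¹ ∈ rad R) →
      ∀ i, LeLoc R (V i) → GoodBelow (V i) (E i) R)
    (hC : CuspData A₀ q V c x⁻¹ s' s'')
    {Y : Fin 3 → F} {z κ : F} {e : Fin 4 → F} (hD : NonCuspData q V Y z κ e)
    (hmem : ∀ R : Subring F, PtBase A₀ q V R → x ∈ R →
      (∀ c, Y c ∈ R) ∧ z ∈ R ∧ (∀ i, RUnit R (e i)) ∧
        (RUnit R (Y 0) → RUnit R (Y 2) → RUnit R κ))
    (hH : ∀ (𝔫 : Ideal (chart A₀.toSubring x)) [𝔫.IsMaximal], (q : chart A₀.toSubring x) ∈ 𝔫 →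
      (∀ c, Through (locSub (chart A₀.toSubring x) 𝔫) (V c)) →
      HalfPt Eα Nα (V 0) (V 1) (locSub (chart A₀.toSubring x) 𝔫) ∧
      HalfPt Eβ Nβ (V 2) (V 1) (locSub (chart A₀.toSubring x) 𝔫)) :
    Model A₀ q x V ϖm Eα Eβ Nα Nβ := by
  refine model_of_preModel P constα constβ normα_const normβ_const halfα halfβ ?_ ?_
  · -- the non-cuspidal points
    intro 𝔪 _ h𝔪
    have hR := P.ptBase 𝔪 h𝔪
    have hj : x ∈ locSub (chart A₀.toSubring x) 𝔪 := le_locSub (self_mem_chart _)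
    obtain ⟨hY, hz, he, hκ⟩ := hmem _ hR hj
    exact hD.ptHyp P.base P.unif0 P.unif1 P.unif2 P.ram1 hR hY hz he hκ E
      (hG _ hR (Or.inl hj)) Eα Eβ Nα Nβ (hH 𝔪 h𝔪)
  · -- the cuspidal points
    intro 𝔫 _ h𝔫 hx
    have hR := P.inv.ptBase 𝔫 h𝔫
    have hs : x⁻¹ ∈ rad (locSub (chart A₀.toSubring x⁻¹) 𝔫) := coe_mem_rad_locSub hx
    exact ptHyp_of_cuspData P.base P.unif0 P.unif1 P.unif2 P.ram1 hR hC hs E
      (hG _ hR (Or.inr hs)) Eα Eβ Nα Nβ

end Abs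

/-! ### The modular assembly -/

section Mod

variable {K K' : Type} [Field K] [Field K'] [Algebra ℚ K] [Algebra ℚ K'] [Algebra K Kbar]
  [Algebra K' Kbar] (S : Setup K K')

/-- the model over a `Setup`, from the nodes N1 .. N6. -/
theorem model_of_nodes (h1 : NodePre) (h2 : NodeHalf) (h3 : NodeCusp) (h4 : NodeGood)
    (h5 : NodeNonCusp) (h6 : NodeHalfPt) (hb : BaseHyp S.B S.q) (haux : Aux S) :
    Model S.B S.q S.J2one (VV S) S.tau0 (Ea S) (Eb S) (Na S) (Nb S) := by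
  have P := h1 K K' S hb
  obtain ⟨hα, hβ, hNα, hNβ⟩ := h2 K K' S
  obtain ⟨c, hC⟩ := h3 K K' S hb
  obtain ⟨Y, z, κ, e, hD, hmem⟩ := h5 K K' S hb haux
  exact model_of_data P (fun a => ⟨algebraMap K S.F1 a, S.al1.commutes a⟩)
    (fun a => ⟨algebraMap K S.F1 a, S.be1.commutes a⟩) hNα hNβ hα hβ (EE S)
    (h4 K K' S hb haux) hC hD hmem (h6 K K' S hb haux)

end Mod

/-- **`S36.ModelStatement` from the nodes N0 .. N6.** -/
theorem modelStatement_of_nodes (h0 : NodeSetup) (h1 : NodePre) (h2 : NodeHalf) (h3 : NodeCusp)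
    (h4 : NodeGood) (h5 : NodeNonCusp) (h6 : NodeHalfPt) : ModelStatement := by
  intro K _ _ _ A₀ q _ N₀ _ hb hq haux
  obtain ⟨K', _, _, _, S, rfl, rfl, rfl⟩ := h0 K A₀ q N₀ hb hq
  exact ⟨S.J2one, VV S, S.tau0, model_of_nodes S h1 h2 h3 h4 h5 h6 hb haux⟩

end Fermat.Agent.S36.Inst

end
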