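/-
S36, instance of the model: `ModelStatement` from the nodes that are still to be proved
(helper36).  The nodes N0, N2, N3 are theorems, N6 follows from N1, N4 and `NodeJInt`.
-/
import Fermat.Agent.S36.Inst.Top
import Fermat.Agent.S36.Inst.SetupExists
import Fermat.Agent.S36.Inst.Half
import Fermat.Agent.S36.Inst.Cusp.Data
import Fermat.Agent.S36.Inst.HalfPt.Node

set_option autoImplicit false

namespace Fermat.Agent.S36.Inst

/-- `ModelStatement` from N1, N4, N5 and the integrality of `j(z)`, `j(qz)` over each other. -/
theorem modelStatement_of_remaining (h1 : NodePre) (h4 : NodeGood) (h5 : NodeNonCusp)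
    (hJ : NodeJInt) : ModelStatement :=
  modelStatement_of_nodes nodeSetup h1 nodeHalf nodeCusp h4 h5 (nodeHalfPt_of h1 h4 hJ)

end Fermat.Agent.S36.Inst
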